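import Mathlib
import Fermat.Agent.LT.T7.H298.MatchQSpec
import Fermat.Agent.LT.T7.H584.UnfoldTop
import Fermat.Agent.LT.T1.H11.LocComp
import Fermat.Agent.LT.T1.H309.AdNorm
import Fermat.Agent.LT.T7.H627.UnfoldCutAbs

/-!
# Row LT, tower T7, leaf T7.L2Q.1.H1.1 `UnfoldGC298` (registry row 2601, helper115)

OFF-MAIN.  `unfoldGC115 K : MQ298.UnfoldGC298 K` VERBATIM against the byte-identical copy of
`LT/T7/H298/MatchQSpec.lean` (helper298@d75774dd1, sha256 53f6570a), UNCONDITIONAL, for every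
number field `K` (the application is `K = ℚ`).

`UnfoldGC298 K` is `H305.UnfoldC305 K` for every CONTINUOUS function with COMPACT SUPPORT (no
`K_∞`-type, no level).  The proof is the proof of `unfoldC627` (helper627@90cb8b44e,
`LT/T7/H627/Unfold305.lean`), which uses the test function only through its continuity: Tonelli on
`G(𝔸) × T_𝔸` for the four non-negative parts of `Ψ = twTerm` (`lintegral_cut627`);
`E_y = {t : t⁻¹ y ∈ Fδ}` is a strict fundamental domain of `Γ = G^σ_δ(K) ⟨r⟩` in `T_𝔸` for every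
`y` (`existsUnique_latT584`), so `μT(E_y) = μT(E_1)` (`measure_eq_of_strict627`); the complex
integrals are recovered from the four lower integrals (`integral_eq_of_parts627`).

The module does NOT import `H627/Unfold305.lean` (the auxiliary lemmas are restated with the
suffix `115`), so it can be used with any proof of `UnfoldC305`; conversely
`unfoldC_of_unfoldG115 : UnfoldGC298 K → UnfoldC305 K` and `unfoldC115 K : UnfoldC305 K` are
recorded.  ADDITIVE: new names only, all suffixed `115`, namespace `Fermat.Agent.LT.T7.H115`.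
No equation lemma of an imported definition is realised here (no `unfold` / `simp [def]`).
-/

set_option autoImplicit false
set_option linter.unusedSectionVars false
set_option linter.style.haveILetI false

open AutomorphicForm IsDedekindDomain NumberField MeasureTheory Set
open scoped ComplexConjugate ENNReal

noncomputable section

namespace Fermat.Agent.LT.T7.H115

open Fermat.Agent.LT.H556 Fermat.Agent.LT.H556.A0 Fermat.Agent.LT.T7
open Fermat.Agent.LT.T7.H305 Fermat.Agent.LT.T7.H584 Fermat.Agent.LT.T7.H627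

attribute [local instance] Fermat.Agent.LT.T5.instMeasurableSpaceG

variable {K : Type} [Field K] [NumberField K]

/-- The summand of the twisted kernel is measurable (continuity of `φ` only). -/
theorem measurable_twTerm115 (r : G K) (s : T5.AdelicAut K) (hs : Continuous s.onG)
    {φ : G K → ℂ} (hφ : Continuous φ) (δ : GL (Fin 2) K) :
    Measurable (T5.twTerm r s φ δ) := by
  haveI : BorelSpace (G K) := ⟨rfl⟩
  have hterm : ∀ m : ℤ, Measurable (fun x : G K => φ (x⁻¹ * T5.ratG δ * s.onG x * r ^ m)) := by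
    intro m
    apply Continuous.measurable
    exact hφ.comp (((continuous_inv.mul continuous_const).mul hs).mul continuous_const)
  have h : T5.twTerm r s φ δ = fun x => ∑' m : ℤ, φ (x⁻¹ * T5.ratG δ * s.onG x * r ^ m) := rfl
  rw [h]
  exact Measurable.tsum hterm

/-- The adelic twisted centraliser is closed. -/
theorem isClosed_tA115 [T2Space (G K)] (s : T5.AdelicAut K) (hs : Continuous s.onG)
    (δ : GL (Fin 2) K) : IsClosed ((tA305 s δ : Subgroup (G K)) : Set (G K)) := by
  have h : ((tA305 s δ : Subgroup (G K)) : Set (G K))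
      = {x : G K | x⁻¹ * T5.ratG δ * s.onG x = T5.ratG δ} := rfl
  rw [h]
  exact isClosed_eq ((continuous_inv.mul continuous_const).mul hs) continuous_const

/-- `E_y = {t : t⁻¹ y ∈ Fδ}` is a strict fundamental domain of `Γ` in `T_𝔸`. -/
theorem existsUnique_Ey115 (hN : T1.AdNormC K) (s : T5.AdelicAut K) (𝔫 : Ideal (𝓞 K))
    (μ : Measure (G K)) (r : G K) (hr : T5.IsRayGen r) (hP : T5.AutPreserves s 𝔫 μ r)
    (hrc : ∀ g : G K, r * g = g * r)
    (δ : GL (Fin 2) K) (Fδ : Set (G K)) (hFδ : T5.IsTwDomain s δ Fδ)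
    (hcomm : ∀ x ∈ tA305 s δ, ∀ y ∈ tA305 s δ, x * y = y * x) (y : G K)
    (t : twCentA584 s δ) :
    ∃! γ : latT584 s δ r hrc,
      ((γ : twCentA584 s δ) * t) ∈ {t : twCentA584 s δ | (t : G K)⁻¹ * y ∈ Fδ} := by
  obtain ⟨γ', hγ', huniq⟩ := existsUnique_latT584 s δ r hrc hP.ray hP.rat
    (fun g => existsUnique_zpow_slab584 hN hr g)
    (fun γ g hg => ratG_mul_mem_slab584 hN γ g hg) Fδ hFδ ((t : G K)⁻¹ * y)
  have key : ∀ γ : latT584 s δ r hrc,
      ((((γ : twCentA584 s δ) * t : twCentA584 s δ) : G K))⁻¹ * y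
        = (((γ⁻¹ : latT584 s δ r hrc) : twCentA584 s δ) : G K) * ((t : G K)⁻¹ * y) := by
    intro γ
    have h1 : (((γ : twCentA584 s δ) : G K))⁻¹ ∈ tA305 s δ :=
      (twCentA584 s δ).inv_mem (γ : twCentA584 s δ).2
    have h2 : ((t : G K))⁻¹ ∈ tA305 s δ := (twCentA584 s δ).inv_mem t.2
    have hc := hcomm _ h2 _ h1
    simp only [Subgroup.coe_mul, Subgroup.coe_inv, mul_inv_rev]
    rw [hc, mul_assoc]
  refine ⟨γ'⁻¹, ?_, ?_⟩
  · show ((((γ'⁻¹ : latT584 s δ r hrc) : twCentA584 s δ) * t : twCentA584 s δ) : G K)⁻¹ * y ∈ Fδ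
    rw [key, inv_inv]
    exact hγ'
  · intro γ hγ
    have hγ2 : ((((γ : twCentA584 s δ) * t : twCentA584 s δ) : G K))⁻¹ * y ∈ Fδ := hγ
    rw [key] at hγ2
    have := huniq γ⁻¹ hγ2
    rw [← this, inv_inv]

/-- The lattice `Γ = G^σ_δ(K) ⟨r⟩` in `T_𝔸 = tA305 s δ`. -/
def lat115 (s : T5.AdelicAut K) (δ : GL (Fin 2) K) (r : G K) (hrc : ∀ g : G K, r * g = g * r) :
    Subgroup (tA305 s δ) :=
  latT584 s δ r hrc

theorem countable_lat115 (s : T5.AdelicAut K) (δ : GL (Fin 2) K) (r : G K)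
    (hrc : ∀ g : G K, r * g = g * r) : Countable (lat115 s δ r hrc) :=
  countable_latT584 s δ r hrc

theorem existsUnique_Ey115' (hN : T1.AdNormC K) (s : T5.AdelicAut K) (𝔫 : Ideal (𝓞 K))
    (μ : Measure (G K)) (r : G K) (hr : T5.IsRayGen r) (hP : T5.AutPreserves s 𝔫 μ r)
    (hrc : ∀ g : G K, r * g = g * r)
    (δ : GL (Fin 2) K) (Fδ : Set (G K)) (hFδ : T5.IsTwDomain s δ Fδ)
    (hcomm : ∀ x ∈ tA305 s δ, ∀ y ∈ tA305 s δ, x * y = y * x) (y : G K)
    (t : tA305 s δ) :
    ∃! γ : lat115 s δ r hrc,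
      ((γ : tA305 s δ) * t) ∈ {t : tA305 s δ | (t : G K)⁻¹ * y ∈ Fδ} :=
  existsUnique_Ey115 hN s 𝔫 μ r hr hP hrc δ Fδ hFδ hcomm y t

theorem twTerm_tA_mul115 (r : G K) (s : T5.AdelicAut K) (φ : G K → ℂ) (δ : GL (Fin 2) K)
    (t : tA305 s δ) (x : G K) :
    T5.twTerm r s φ δ ((t : G K) * x) = T5.twTerm r s φ δ x :=
  twTerm_twCentA_mul584 r s φ δ t x

/-- **LEAF Q2.1 = UNFOLD, general form** (continuous `φ`; the compact support is not used),
VERBATIM. -/
theorem unfoldGC115 (K : Type) [Field K] [NumberField K] : MQ298.UnfoldGC298 K := by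
  intro R hR s l k 𝔫 hcyc hP δ hδ φ hφ hφcs Fδ hFδ hcomm μT hμT β hβ
  have hLC := Fermat.Agent.LT.T1.H11.locCompC_h11 K
  have hN := Fermat.Agent.LT.T1.H309.adNormC309 K
  haveI : LocallyCompactSpace (G K) := hLC.2.1
  haveI : T2Space (G K) := hLC.2.2.1
  haveI : SecondCountableTopology (G K) := hLC.2.2.2
  haveI : BorelSpace (G K) := ⟨rfl⟩
  haveI : R.μ.IsHaarMeasure := hR.frame.haar
  letI mT : MeasurableSpace (tA305 s δ) := borel _
  haveI : BorelSpace (tA305 s δ) := ⟨rfl⟩
  haveI hHaarT : μT.IsHaarMeasure := hμT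
  have hclosed := isClosed_tA115 s hP.cont δ
  haveI : SigmaCompactSpace (tA305 s δ) :=
    hclosed.isClosedEmbedding_subtypeVal.sigmaCompactSpace
  have hr := hR.ray
  have hrc := T5.H277.ray_comm277 hr
  haveI : Countable (lat115 s δ R.r hrc) := countable_lat115 s δ R.r hrc
  -- the integrand
  have hΨm : Measurable (T5.twTerm R.r s φ δ) := measurable_twTerm115 R.r s hP.cont hφ δ
  have hj : Measurable (fun t : tA305 s δ => (t : G K)) := continuous_subtype_val.measurable
  obtain ⟨hβm, hβ0, hβ1⟩ := hβ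
  have hβ'm : Measurable fun y : G K => ENNReal.ofReal (β y) :=
    ENNReal.measurable_ofReal.comp hβm
  -- the cut-off in the form of a lower integral
  have hcut : ∀ x, T5.twTerm R.r s φ δ x ≠ 0 →
      ∫⁻ t : tA305 s δ, ENNReal.ofReal (β ((t : G K) * x)) ∂μT = 1 := by
    intro x hx
    have h1 := hβ1 x hx
    have hint : Integrable (fun t : tA305 s δ => β ((t : G K) * x)) μT := by
      by_contra hni
      rw [integral_undef hni] at h1
      exact zero_ne_one h1
    rw [← ofReal_integral_eq_lintegral_ofReal hint (ae_of_all _ fun t => hβ0 _), h1,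
      ENNReal.ofReal_one]
  -- the volume
  have hEy : ∀ y : G K, MeasurableSet {t : tA305 s δ | (t : G K)⁻¹ * y ∈ Fδ} := fun y =>
    (hj.inv.mul measurable_const) hFδ.meas
  have hV : ∀ y : G K, μT {t : tA305 s δ | (t : G K)⁻¹ * y ∈ Fδ} = torVol305 s δ μT Fδ := by
    intro y
    have h := measure_eq_of_strict627 μT (lat115 s δ R.r hrc) (hEy y) (hEy 1)
      (existsUnique_Ey115' hN s 𝔫 R.μ R.r hr hP hrc δ Fδ hFδ hcomm y)
      (existsUnique_Ey115' hN s 𝔫 R.μ R.r hr hP hrc δ Fδ hFδ hcomm 1)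
    rw [h]
    show μT {t : tA305 s δ | (t : G K)⁻¹ * 1 ∈ Fδ} = μT {t : tA305 s δ | ((t : G K))⁻¹ ∈ Fδ}
    simp only [mul_one]
  -- the identity for the four parts
  have hpart : ∀ P : ℂ → ℝ, Measurable P → P 0 = 0 →
      (∀ (z : ℂ) (b : ℝ), P (z * (b : ℂ)) = P z * b) →
      ∫⁻ x, ENNReal.ofReal (P (T5.twTerm R.r s φ δ x)) ∂(R.μ.restrict Fδ)
        = torVol305 s δ μT Fδ *
          ∫⁻ y, ENNReal.ofReal (P (T5.twTerm R.r s φ δ y * ((β y : ℝ) : ℂ))) ∂(R.μ) := by
    intro P hPm hP0 hPmul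
    have hgm : Measurable fun x => ENNReal.ofReal (P (T5.twTerm R.r s φ δ x)) :=
      ENNReal.measurable_ofReal.comp (hPm.comp hΨm)
    have hginv : ∀ (t : tA305 s δ) (x : G K),
        ENNReal.ofReal (P (T5.twTerm R.r s φ δ ((t : G K) * x)))
          = ENNReal.ofReal (P (T5.twTerm R.r s φ δ x)) := fun t x => by
      rw [twTerm_tA_mul115]
    have h := lintegral_cut627 R.μ μT (fun t : tA305 s δ => (t : G K)) hj hFδ.meas hgm hβ'm
      hginv
    have hL : ∫⁻ x in Fδ, ENNReal.ofReal (P (T5.twTerm R.r s φ δ x)) *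
          (∫⁻ t : tA305 s δ, ENNReal.ofReal (β ((t : G K) * x)) ∂μT) ∂(R.μ)
        = ∫⁻ x in Fδ, ENNReal.ofReal (P (T5.twTerm R.r s φ δ x)) ∂(R.μ) := by
      refine lintegral_congr fun x => ?_
      by_cases hx : T5.twTerm R.r s φ δ x = 0
      · rw [hx, hP0]; simp
      · rw [hcut x hx, mul_one]
    rw [hL] at h
    rw [h]
    simp_rw [hV]
    have hgβ : Measurable fun y : G K =>
        ENNReal.ofReal (P (T5.twTerm R.r s φ δ y)) * ENNReal.ofReal (β y) := hgm.mul hβ'm
    rw [lintegral_mul_const _ hgβ, mul_comm]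
    congr 1
    refine lintegral_congr fun y => ?_
    rw [hPmul, ENNReal.ofReal_mul' (hβ0 y)]
  have hm2 : Measurable fun y => T5.twTerm R.r s φ δ y * ((β y : ℝ) : ℂ) :=
    hΨm.mul (Complex.measurable_ofReal.comp hβm)
  exact integral_eq_of_parts627 (R.μ.restrict Fδ) R.μ (torVol305 s δ μT Fδ) hΨm hm2
    (hpart (fun z => z.re) Complex.measurable_re (by simp) (fun z b => by simp))
    (hpart (fun z => -z.re) Complex.measurable_re.neg (by simp) (fun z b => by simp))
    (hpart (fun z => z.im) Complex.measurable_im (by simp) (fun z b => by simp))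
    (hpart (fun z => -z.im) Complex.measurable_im.neg (by simp) (fun z b => by simp))

/-- The cubic leaf `UnfoldC305 K` is a special case of the general form (a test function is
continuous with compact support). -/
theorem unfoldC_of_unfoldG115 (K : Type) [Field K] [NumberField K]
    (h : MQ298.UnfoldGC298 K) : UnfoldC305 K :=
  fun R hR s l k 𝔫 hcyc hP δ hδ φ hφ Fδ hFδ hcomm μT hμT β hβ =>
    h R hR s l k 𝔫 hcyc hP δ hδ φ hφ.cont hφ.supp Fδ hFδ hcomm μT hμT β hβ

/-- `UnfoldC305 K`, from the general form (spare; the same statement as `unfoldC627`). -/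
theorem unfoldC115 (K : Type) [Field K] [NumberField K] : UnfoldC305 K :=
  unfoldC_of_unfoldG115 K (unfoldGC115 K)

end Fermat.Agent.LT.T7.H115

end
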