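import Mathlib
import Fermat.Agent.LT.T7.H57.PairBSpec
import Fermat.Agent.LT.T1.Closed

/-!
# Row LT, tower T7, leaf T7.L2.1.H2a.B.1 `PB57.NatUpC57` (registry row 2792, helper115)

OFF-MAIN.  `natUpC115 K K' LB : PB57.NatUpC57 K K' LB` VERBATIM against the byte-identical copy
of `LT/T7/H57/PairBSpec.lean` (helper57@6af65419a, sha256 40309edd), UNCONDITIONAL, for EVERY
shape `LB` (the shape is not used).

Proof.  Plug of the closed tool `H193.killing_of_torus193` (helper193, `T7/H193/NatTools.lean`)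
with `R = B.R'`, `𝔑 = 𝔫 𝒪_{K'}`, `𝔑₀ = B.𝔑₀`, `l = ℓ`, orbit `B.o`, and `T1.t1Out K'`:

* torus data for the level `𝔫 𝒪_{K'}` are torus data for `𝔑₀` (`H193.isTorusData_mono193`);
* `H193.IsBiHInv` is `H893.IsUInv` verbatim;
* `up2_op`: an eigenfunction is continuous and invariant under the positive scalars at infinity
  (`IsWFn.cusp.cont`, `IsWFn.arch_scalar`), so `R(φ♮) ψ = R(φ) ψ = c₂ ψ`;
* `up2_supp`: if `φ♮(y) ≠ 0` then `φ(y a(t)⁻¹) ≠ 0` for some `t ∈ D`; `a(t)` is trivial at the
  finite places, so `y` is Iwahori along the orbit and agrees outside the orbit with a point of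
  the compact set `C · a(closure D)` (`isIwSupported_nat115`, one field, any torus data).

The dual lemma for the leaf downstairs `PB57.NatDnC57` uses the same two tools; only
`isIwSupported_nat115` and `exists_ne_of_nat_ne115` are shared.  ADDITIVE: new names only, all
suffixed `115`, namespace `Fermat.Agent.LT.T7.H115`.  No equation lemma of an imported definition
is realised here.
-/

set_option autoImplicit false
set_option linter.unusedSectionVars false
set_option linter.unusedVariables false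

open AutomorphicForm IsDedekindDomain NumberField MeasureTheory
open scoped ComplexConjugate

noncomputable section

namespace Fermat.Agent.LT.T7.H115

open Fermat.Agent.LT.H556 Fermat.Agent.LT.H556.A0 Fermat.Agent.LT Fermat.Agent.LT.T7
open Fermat.Agent.LT.T7.H893 Fermat.Agent.LT.T7.Q797

attribute [local instance] Fermat.Agent.LT.T5.instMeasurableSpaceG

section OneField

variable {K : Type} [Field K] [NumberField K]

/-- If the torus mean does not vanish at `y`, the function does not vanish at some `y a(t)⁻¹`,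
`t ∈ D`. -/
theorem exists_ne_of_nat_ne115 {a : (InfinitePlace K → ℝ) → G K}
    {D : Set (InfinitePlace K → ℝ)} (hDm : MeasurableSet D) {φ : G K → ℂ} {y : G K}
    (h : H193.nat193 a D φ y ≠ 0) : ∃ t ∈ D, φ (y * (a t)⁻¹) ≠ 0 := by
  by_contra hcon
  apply h
  have h0 : ∀ t ∈ D, φ (y * (a t)⁻¹) = 0 := fun t ht => by
    by_contra hne
    exact hcon ⟨t, ht, hne⟩
  have h1 : ∫ t in D, φ (y * (a t)⁻¹) = 0 := by
    have h2 : ∫ t in D, φ (y * (a t)⁻¹) = ∫ t in D, (0 : ℂ) :=
      setIntegral_congr_fun hDm h0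
    rw [h2, integral_zero]
  show (((volume D).toReal : ℝ) : ℂ)⁻¹ * ∫ t in D, φ (y * (a t)⁻¹) = 0
  rw [h1, mul_zero]

/-- An element which is trivial at the finite place `w` is Iwahori at `w`. -/
theorem inIwahori_of_trivAtFin115 (w : HeightOneSpectrum (𝓞 K)) {z : G K}
    (hz : TrivAtFin w z) : T5.InIwahori w z := by
  have h1 : finComp w z = 1 := hz
  have h2 : finComp w z⁻¹ = 1 := by
    have h3 : finComp w z⁻¹ * finComp w z = 1 := by
      rw [← H942.finComp_mul942, inv_mul_cancel, H942.finComp_one942]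
    rw [h1, mul_one] at h3
    exact h3
  have hint : ∀ i j, (1 : Matrix (Fin 2) (Fin 2) (w.adicCompletion K)) i j
      ∈ w.adicCompletionIntegers K := by
    intro i j
    by_cases h : i = j
    · subst h
      rw [Matrix.one_apply_eq]
      exact Subring.one_mem _
    · rw [Matrix.one_apply_ne h]
      exact Subring.zero_mem _
  refine ⟨fun i j => ?_, fun i j => ?_, ?_⟩
  · rw [h1]; exact hint i j
  · rw [h2]; exact hint i j
  · rw [h1, Matrix.one_apply_ne (by decide : (1 : Fin 2) ≠ 0), map_zero]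
    exact zero_lt_one

/-- **The support of a torus mean.**  If `φ` is Iwahori-supported in the compact set `C`, the
torus mean `φ♮` is Iwahori-supported in the compact set `C · a(closure D)`. -/
theorem isIwSupported_nat115 {𝔑 : Ideal (𝓞 K)} {r : G K}
    {a : (InfinitePlace K → ℝ) → G K} {D : Set (InfinitePlace K → ℝ)}
    (hD : H193.IsTorusData 𝔑 r a D) {l : ℕ} {o : ℕ → HeightOneSpectrum (𝓞 K)} {φ : G K → ℂ}
    (h : ∃ C : Set (G K), IsCompact C ∧ T5.H32.IsIwSupported32 l o C φ) :
    ∃ C : Set (G K), IsCompact C ∧ T5.H32.IsIwSupported32 l o C (H193.nat193 a D φ) := by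
  obtain ⟨C, hC, hsupp⟩ := h
  have hcl : IsCompact (closure D) := hD.bdd.isCompact_closure
  refine ⟨(fun p : G K × (InfinitePlace K → ℝ) => p.1 * a p.2) '' (C ×ˢ closure D),
    (hC.prod hcl).image (continuous_fst.mul (hD.cont.comp continuous_snd)), ?_⟩
  intro y hy
  obtain ⟨t, ht, hne⟩ := exists_ne_of_nat_ne115 hD.meas hy
  obtain ⟨hiw, c, hc, hagree⟩ := hsupp _ hne
  have hy' : y = y * (a t)⁻¹ * a t := by rw [inv_mul_cancel_right]
  refine ⟨fun j hj => ?_, c * a t, ⟨(c, t), ⟨hc, subset_closure ht⟩, rfl⟩, ?_⟩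
  · rw [hy']
    exact T5.H942.inIwahori_mul942 (o j) (hiw j hj) (inIwahori_of_trivAtFin115 (o j) (hD.fin t (o j)))
  · have := T5.H942.agreeOutside_mul942 {v | ∃ j < l, v = o j} hagree
      (T5.H942.agreeOutside_refl942 {v | ∃ j < l, v = o j} (a t))
    rw [← hy'] at this
    exact this

end OneField

section TwoFields

variable (K K' : Type) [Field K] [NumberField K] [Field K'] [NumberField K'] [Algebra K K']

/-- The extension of a non-zero ideal is not zero. -/
theorem upI_ne_bot115 {𝔫 : Ideal (𝓞 K)} (h : 𝔫 ≠ ⊥) : upI (K' := K') 𝔫 ≠ ⊥ := by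
  intro h0
  apply h
  exact (Ideal.map_eq_bot_iff_of_injective
    (FaithfulSMul.algebraMap_injective (𝓞 K) (𝓞 K'))).1 h0

/-- **LEAF PB.1 = NAT-UP**, VERBATIM, for every shape `LB`. -/
theorem natUpC115 (LB : ShapeB797 K K') : PB57.NatUpC57 K K' LB := by
  intro ℓ Φ B hcyc hB g 𝔫 hlev μc T₀ n n₀ m a c₂ φ₀ f₀ hpre aT D aT' D' hrel
  have hT1 : T1.T1Out K' := T1.t1Out K'
  have hD : H193.IsTorusData B.𝔑₀ B.R'.r aT' D' :=
    H193.isTorusData_mono193 hlev.level_g hrel.up
  obtain ⟨ht, hek, hadj, hbi, hop, hkill⟩ :=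
    H193.killing_of_torus193 hT1 B.R' hB.frame' (upI (K' := K') 𝔫) B.𝔑₀
      (upI_ne_bot115 K K' hlev.level_ne) hlev.level_g ℓ B.o hD φ₀ hpre.up_test hpre.up_ek.1
      hpre.up_ek.2 hpre.up_inv
  exact
    { up2_test := ht
      up2_ek := ⟨hek, hadj⟩
      up2_inv := hbi
      up2_op := fun ψ C hψ x => by
        rw [hop ψ hψ.inv.cusp.cont hψ.inv.arch_scalar x]
        exact hpre.up_op ψ C hψ x
      up2_kill := hkill
      up2_ne := hpre.up_ne
      up2_supp := isIwSupported_nat115 hD hpre.up_supp }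

end TwoFields

end Fermat.Agent.LT.T7.H115

end
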