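import Mathlib
import Fermat.Agent.LT.T7.H57.PairBSpec
import Fermat.Agent.LT.T1.Closed
import Fermat.Agent.LT.T7.H115.NatUp

/-!
# Row LT, tower T7, leaf T7.L2.1.H2a.B.2 `PB57.NatDnC57` (helper115, SPARE)

OFF-MAIN.  `natDnC115 K K' LB : PB57.NatDnC57 K K' LB` VERBATIM against the byte-identical copy
of `LT/T7/H57/PairBSpec.lean` (helper57@6af65419a, sha256 40309edd), UNCONDITIONAL, for EVERY
shape `LB` (the shape is not used).

Proof.  Plug of the closed tool `H193.killing_of_torus193` with `R = B.R`, `𝔑 = 𝔑₀ = 𝔫`, `l = 1`,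
orbit `(u)`, and `T1.t1Out K`.  The three operator properties `dn2_wfn`, `dn2_class`, `dn2_comm`:
`R(f♮) e = R(f) e` for every continuous `e` which is invariant under the positive scalars at
infinity (fifth clause of the tool); the invariant cusp functions are of this kind, and so are
`iwOp u H ψ` and `shiftOp z k ψ` (a positive scalar at infinity is a value `a(s)` of the torus
data, `H865.posScalar_eq865`, hence central).  Support: `isIwSupported_nat115` (`NatUp.lean`).
ADDITIVE: new names only, suffix `115`.  No equation lemma of an imported definition is realised.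
-/

set_option autoImplicit false
set_option linter.unusedSectionVars false
set_option linter.unusedVariables false

open AutomorphicForm IsDedekindDomain NumberField MeasureTheory
open scoped ComplexConjugate

noncomputable section

namespace Fermat.Agent.LT.T7.H115

open Fermat.Agent.LT.H556 Fermat.Agent.LT.H556.A0 Fermat.Agent.LT Fermat.Agent.LT.T7
open Fermat.Agent.LT.T7.H893 Fermat.Agent.LT.T7.Q797

attribute [local instance] Fermat.Agent.LT.T5.instMeasurableSpaceG

section OneField

variable {K : Type} [Field K] [NumberField K]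

/-- A positive scalar at an infinite place is central (torus data exist). -/
theorem posScalar_central115 {𝔑 : Ideal (𝓞 K)} {r : G K}
    {a : (InfinitePlace K → ℝ) → G K} {D : Set (InfinitePlace K → ℝ)}
    (hD : H193.IsTorusData 𝔑 r a D) {w : InfinitePlace K} {z : G K}
    (hz : IsArchPosScalar w z) (g : G K) : z * g = g * z := by
  obtain ⟨s, hs⟩ := H865.posScalar_eq865 hD hz
  rw [hs]
  exact hD.central s g

theorem continuous_iwOp115 (w : HeightOneSpectrum (𝓞 K)) (H : Finset (G K)) {ψ : G K → ℂ}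
    (hψ : Continuous ψ) : Continuous (iwOp w H ψ) := by
  have h : iwOp w H ψ = fun x => ((Real.sqrt (Ideal.absNorm w.asIdeal : ℝ) : ℝ) : ℂ)⁻¹
      * ∑ h ∈ H, ψ (x * h) := rfl
  rw [h]
  exact continuous_const.mul
    (continuous_finsetSum _ fun h _ => hψ.comp (continuous_id.mul continuous_const))

theorem continuous_shiftOp115 (z : G K) (k : ℤ) {ψ : G K → ℂ} (hψ : Continuous ψ) :
    Continuous (shiftOp z k ψ) := by
  have h : shiftOp z k ψ = fun x => ψ (x * z ^ k) := rfl
  rw [h]
  exact hψ.comp (continuous_id.mul continuous_const)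

/-- `iwOp` preserves the invariance under the positive scalars at infinity. -/
theorem iwOp_posScalar115 {𝔑 : Ideal (𝓞 K)} {r : G K}
    {a : (InfinitePlace K → ℝ) → G K} {D : Set (InfinitePlace K → ℝ)}
    (hD : H193.IsTorusData 𝔑 r a D) (v : HeightOneSpectrum (𝓞 K)) (H : Finset (G K))
    {ψ : G K → ℂ}
    (hψ : ∀ (w : InfinitePlace K) (z : G K), IsArchPosScalar w z → ∀ g : G K, ψ (g * z) = ψ g)
    (w : InfinitePlace K) (z : G K) (hz : IsArchPosScalar w z) (g : G K) :
    iwOp v H ψ (g * z) = iwOp v H ψ g := by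
  show ((Real.sqrt (Ideal.absNorm v.asIdeal : ℝ) : ℝ) : ℂ)⁻¹ * ∑ h ∈ H, ψ (g * z * h)
    = ((Real.sqrt (Ideal.absNorm v.asIdeal : ℝ) : ℝ) : ℂ)⁻¹ * ∑ h ∈ H, ψ (g * h)
  congr 1
  refine Finset.sum_congr rfl fun h _ => ?_
  rw [mul_assoc, posScalar_central115 hD hz h, ← mul_assoc]
  exact hψ w z hz (g * h)

/-- `shiftOp` preserves the invariance under the positive scalars at infinity. -/
theorem shiftOp_posScalar115 {𝔑 : Ideal (𝓞 K)} {r : G K}
    {a : (InfinitePlace K → ℝ) → G K} {D : Set (InfinitePlace K → ℝ)}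
    (hD : H193.IsTorusData 𝔑 r a D) (z₀ : G K) (k : ℤ) {ψ : G K → ℂ}
    (hψ : ∀ (w : InfinitePlace K) (z : G K), IsArchPosScalar w z → ∀ g : G K, ψ (g * z) = ψ g)
    (w : InfinitePlace K) (z : G K) (hz : IsArchPosScalar w z) (g : G K) :
    shiftOp z₀ k ψ (g * z) = shiftOp z₀ k ψ g := by
  show ψ (g * z * z₀ ^ k) = ψ (g * z₀ ^ k)
  rw [mul_assoc, posScalar_central115 hD hz (z₀ ^ k), ← mul_assoc]
  exact hψ w z hz (g * z₀ ^ k)

end OneField

section TwoFields

variable (K K' : Type) [Field K] [NumberField K] [Field K'] [NumberField K'] [Algebra K K']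

/-- **LEAF PB.2 = NAT-DOWN**, VERBATIM, for every shape `LB`. -/
theorem natDnC115 (LB : ShapeB797 K K') : PB57.NatDnC57 K K' LB := by
  intro ℓ Φ B hcyc hB g 𝔫 hlev μc T₀ n n₀ m a c₂ φ₀ f₀ hpre aT D aT' D' hrel
  have hT1 : T1.T1Out K := T1.t1Out K
  have hD : H193.IsTorusData 𝔫 B.R.r aT D := hrel.down
  obtain ⟨ht, hek, hadj, hbi, hop, hkill⟩ :=
    H193.killing_of_torus193 hT1 B.R hB.frame 𝔫 𝔫 hlev.level_ne le_rfl 1 (fun _ => B.u) hD f₀
      hpre.dn_test hpre.dn_ek.1 hpre.dn_ek.2 hpre.dn_inv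
  -- `R(f♮) ψ = R(f) ψ` on the invariant cusp functions
  have hfun : ∀ ψ : G K → ℂ, IsWFn 𝔫 B.R.r 1 (fun _ => B.u) ψ →
      T5.Rconv B.R.μ (H193.nat193 aT D f₀) ψ = T5.Rconv B.R.μ f₀ ψ := fun ψ hψ =>
    funext fun x => hop ψ hψ.cusp.cont hψ.arch_scalar x
  exact
    { dn2_test := ht
      dn2_ek := ⟨hek, hadj⟩
      dn2_inv := hbi
      dn2_wfn := fun ψ hψ => by
        rw [hfun ψ hψ]
        exact hpre.dn_wfn ψ hψ
      dn2_class := fun ψ c hψ => by
        rw [hfun ψ hψ.inv]
        exact hpre.dn_class ψ c hψ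
      dn2_comm := fun ψ hψ H z hH hz => by
        obtain ⟨h1, h2⟩ := hpre.dn_comm ψ hψ H z hH hz
        refine ⟨fun x => ?_, fun k x => ?_⟩
        · rw [hfun ψ hψ, hop (iwOp B.u H ψ) (continuous_iwOp115 B.u H hψ.cusp.cont)
            (iwOp_posScalar115 hD B.u H hψ.arch_scalar) x]
          exact h1 x
        · rw [hfun ψ hψ, hop (shiftOp z k ψ) (continuous_shiftOp115 z k hψ.cusp.cont)
            (shiftOp_posScalar115 hD z k hψ.arch_scalar) x]
          exact h2 k x
      dn2_kill := hkill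
      dn2_supp := isIwSupported_nat115 hD hpre.dn_supp }

end TwoFields

end Fermat.Agent.LT.T7.H115

end
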